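import Fermat.Agent.ChowlaDworkEvans.Main

/-!
# Jacobi's binomial congruence modulo `p ^ 2`

For `p = 3 k + 1` the binomial coefficient `(2 k choose k)` is `-Γ (1 / 3) ^ 3` modulo `p ^ 2` by
reflection and second differences, and that is minus a cubic Jacobi sum.
-/

set_option autoImplicit false
set_option linter.unusedSectionVars false

noncomputable section

open Finset FA.DworkRationality FA.GrossKoblitz Fermat.Agent.ChowlaDworkEvans
open scoped Classical

namespace Fermat.Agent.Supercongruence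

variable {p : ℕ} [hp : Fact p.Prime] {k : ℕ}

local notation "Cp" => ℂ_[p]

variable (p) in
/-- `1 / 3`. -/
def third : ℤ_[p] := Ring.inverse 3

variable (p) in
/-- The unit root: `-Γ (1 / 3) ^ 3`. -/
def cubicRoot : Cp := -(padicGamma p (third p) ^ 3)

variable (hk : p = 3 * k + 1)
include hk

theorem cubic_ne_two : p ≠ 2 := by omega

theorem even_k : Even k := by
  have h := hp.out.odd_of_ne_two (cubic_ne_two hk)
  rw [Nat.odd_iff] at h
  exact Nat.even_iff.2 (by omega)

theorem isUnit_three : IsUnit (3 : ℤ_[p]) := by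
  have := GaussProduct.isUnit_natCast (p := p) (m := 3) fun h => by
    have := (Nat.prime_dvd_prime_iff_eq hp.out Nat.prime_three).1 h
    omega
  exact_mod_cast this

theorem three_mul_third : 3 * third p = 1 := Ring.mul_inverse_cancel _ (isUnit_three hk)

theorem cubic_prime_eq : (p : ℤ_[p]) = 3 * (k : ℤ_[p]) + 1 := by
  exact_mod_cast congrArg (Nat.cast (R := ℤ_[p])) hk

theorem padicGamma_natCast_lt {n : ℕ} (hn : n < p) :
    padicGamma p ((n + 1 : ℕ) : ℤ_[p]) = (-1) ^ (n + 1) * (n.factorial : Cp) := by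
  rw [padicGamma_natCast]
  refine congrArg _ ?_
  have : ∀ m, m ≤ n → ∏ j ∈ (range (m + 1)).filter (fun j => ¬ p ∣ j), (j : Cp) =
      (m.factorial : Cp) := fun m hm => by
    induction m with
    | zero => simp [Finset.filter_singleton]
    | succ m ih =>
      rw [range_add_one, filter_insert, if_pos (fun h => by
        have := Nat.le_of_dvd m.succ_pos h
        omega), prod_insert (by simp), ih (by omega), Nat.factorial_succ]
      push_cast
      rfl
  exact this n le_rfl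

theorem gamma_third_mul : padicGamma p (third p) * padicGamma p (2 * third p) = -1 := by
  have h3 := three_mul_third hk
  have e : third p = (p : ℤ_[p]) * (-(2 * third p)) + ((2 * k + 1 : ℕ) : ℤ_[p]) := by
    rw [cubic_prime_eq hk]
    push_cast
    linear_combination (2 * (k : ℤ_[p]) + 1) * h3
  have h := padicGamma_reflection (cubic_ne_two hk) (-(2 * third p)) (c := 2 * k + 1) (by omega)
    (by omega)
  rw [← e, show 1 - third p = 2 * third p by linear_combination -h3] at h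
  rw [h, Odd.neg_one_pow (by simp)]

theorem norm_cubicRoot : ‖cubicRoot p‖ = 1 := by simp [cubicRoot, norm_padicGamma]

theorem norm_choose_sub_cubicRoot :
    ‖((2 * k).choose k : Cp) - cubicRoot p‖ ≤ ‖(p : ℤ_[p])‖ ^ 2 := by
  have hp2 := cubic_ne_two hk
  have h3 := three_mul_third hk
  have hpe := cubic_prime_eq hk
  set q := third p with hq
  set s : ℤ_[p] := (p : ℤ_[p]) * q with hs
  set N : Cp := ((2 * k).choose k : Cp) with hN
  set A := padicGamma p (2 * q + s) with hA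
  set B := padicGamma p (2 * q - s - s) with hB
  set M := padicGamma p (2 * q - s) with hM
  set t := padicGamma p (2 * q) with ht
  have e1 : ((k + 1 : ℕ) : ℤ_[p]) = 2 * q + s := by
    refine (isUnit_three hk).mul_left_cancel ?_
    rw [hs, hpe]
    push_cast
    linear_combination (-2 - (3 * (k : ℤ_[p]) + 1)) * h3
  have e2 : ((2 * k + 1 : ℕ) : ℤ_[p]) = q + s + s := by
    refine (isUnit_three hk).mul_left_cancel ?_
    rw [hs, hpe]
    push_cast
    linear_combination (-1 - 2 * (3 * (k : ℤ_[p]) + 1)) * h3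
  have hNA : N * A ^ 2 = -padicGamma p (q + s + s) := by
    rw [hA, ← e1, ← e2, padicGamma_natCast_lt hk (by omega : k < p),
      padicGamma_natCast_lt hk (by omega : 2 * k < p), hN,
      ← Nat.choose_mul_factorial_mul_factorial (show k ≤ 2 * k by omega),
      show 2 * k - k = k by omega, mul_pow, ← pow_mul, Even.neg_one_pow (by simp),
      Odd.neg_one_pow (by simp)]
    push_cast
    ring
  have hrefl : padicGamma p (q + s + s) * B = -1 := by
    have := reflectProd_congr hp2 (x := q + s + s) (y := q) (by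
      rw [show q + s + s - q = (p : ℤ_[p]) * (q + q) by rw [hs]; ring]
      exact dvd_mul_right _ _)
    simp only [reflectProd, show 1 - (q + s + s) = 2 * q - s - s by linear_combination -h3,
      show 1 - q = 2 * q by linear_combination -h3] at this
    rw [hB, this]
    exact gamma_third_mul hk
  -- second differences
  have hds : (p : ℤ_[p]) ∣ s := ⟨q, hs⟩
  have hsn : ‖s‖ ≤ ‖(p : ℤ_[p])‖ := by
    rw [hs, norm_mul]
    exact mul_le_of_le_one_right (norm_nonneg _) (PadicInt.norm_le_one _)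
  have d1 : ‖t ^ 2 - A * M‖ ≤ ‖(p : ℤ_[p])‖ ^ 2 := by
    have h := padicGamma_second_difference hp2 hds ((dvd_neg).2 hds) (2 * q)
    rw [add_neg_cancel_right, ← sub_eq_add_neg, norm_neg, ← pow_two, ← pow_two] at h
    exact h.trans (pow_le_pow_left₀ (norm_nonneg _) hsn 2)
  have d2 : ‖B * t - M ^ 2‖ ≤ ‖(p : ℤ_[p])‖ ^ 2 := by
    have h := padicGamma_second_difference hp2 ((dvd_neg).2 hds) ((dvd_neg).2 hds) (2 * q)
    rw [← sub_eq_add_neg, ← sub_eq_add_neg, norm_neg, ← pow_two, ← pow_two] at h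
    exact h.trans (pow_le_pow_left₀ (norm_nonneg _) hsn 2)
  have hone : ‖A‖ = 1 ∧ ‖B‖ = 1 ∧ ‖M‖ = 1 ∧ ‖t‖ = 1 ∧ ‖padicGamma p q‖ = 1 :=
    ⟨norm_padicGamma _, norm_padicGamma _, norm_padicGamma _, norm_padicGamma _, norm_padicGamma _⟩
  have hC := gamma_third_mul hk
  rw [← hq, ← ht] at hC
  have hkey : (N - cubicRoot p) * (A ^ 2 * B * t) =
      padicGamma p q ^ 3 * ((A ^ 2) * (B * t - M ^ 2) - (t ^ 2 + A * M) * (t ^ 2 - A * M)) := by
    rw [cubicRoot, ← hq]
    linear_combination (B * t) * hNA - t * hrefl + t * ((padicGamma p q * t) ^ 2 - padicGamma p q * t + 1) * hC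
  have h := congrArg norm hkey
  rw [norm_mul, norm_mul, norm_mul, norm_mul, norm_pow, norm_pow, hone.1, hone.2.1, hone.2.2.2.1,
    hone.2.2.2.2, one_pow, one_pow, mul_one, mul_one, mul_one, one_mul] at h
  rw [h, sub_eq_add_neg]
  refine (IsUltrametricDist.norm_add_le_max _ _).trans (max_le ?_ ?_)
  · rw [norm_mul, norm_pow, hone.1, one_pow, one_mul]
    exact d2
  · rw [norm_neg, norm_mul]
    refine (mul_le_of_le_one_left (norm_nonneg _) ?_).trans d1
    refine (IsUltrametricDist.norm_add_le_max _ _).trans (max_le ?_ ?_)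
    · rw [norm_pow, hone.2.2.2.1, one_pow]
    · rw [norm_mul, hone.1, hone.2.2.1, one_mul]

theorem exists_cubic_trace : ∃ T S : ℤ, 4 * (p : ℤ) = T ^ 2 + 27 * S ^ 2 ∧ T % 3 = 1 ∧
    cubicRoot p ^ 2 + (T : Cp) * cubicRoot p + (p : Cp) = 0 := by
  have hk1 : 2 ≤ k := by
    have h := even_k hk
    rw [Nat.even_iff] at h
    have := hp.out.two_le
    omega
  have h3 := three_mul_third hk
  obtain ⟨ω, hω⟩ := FA.Summary.exists_teichmuller_mulChar (p := p) (ZMod p)
  obtain ⟨hord, -⟩ := GaussProduct.exists_eq_omega_inv_pow hω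
  rw [Fintype.card_units, ZMod.card] at hord
  set χ := ω⁻¹ ^ k with hχ
  have hχ3 : χ ^ 3 = 1 := by
    rw [hχ, ← pow_mul, show k * 3 = orderOf ω⁻¹ by omega, pow_orderOf_eq_one]
  have hne1 : χ ≠ 1 := pow_ne_one_of_lt_orderOf (by omega) (by omega)
  have hne : χ * χ ≠ 1 := by
    rw [hχ, ← pow_add]
    exact pow_ne_one_of_lt_orderOf (by omega) (by omega)
  have h4 : χ ^ 2 * χ ^ 2 = χ := by
    rw [← pow_add, show 2 + 2 = 3 + 1 from rfl, pow_succ, hχ3, one_mul]
  obtain ⟨μ, hμ⟩ : ∃ μ : Cp, IsPrimitiveRoot μ 3 := HasEnoughRootsOfUnity.exists_primitiveRoot _ 3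
  have hμ3 : μ ^ 3 = 1 := hμ.pow_eq_one
  have hμne : μ ≠ 1 := hμ.ne_one (by norm_num)
  have hμ2 : μ ^ 2 = -1 - μ := by
    have : (μ - 1) * (μ ^ 2 + μ + 1) = 0 := by linear_combination hμ3
    linear_combination (mul_eq_zero.1 this).resolve_left (sub_ne_zero.2 hμne)
  -- the values
  have hval : ∀ x : ZMod p, ∃ A B : ℤ, χ x * χ (1 - x) = (A : Cp) + (B : Cp) * μ ∧
      (χ ^ 2) x * (χ ^ 2) (1 - x) = (A : Cp) + (B : Cp) * μ ^ 2 := fun x => by
    rw [MulChar.pow_apply' χ two_ne_zero, MulChar.pow_apply' χ two_ne_zero, ← mul_pow, ← map_mul]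
    set y := x * (1 - x)
    rcases eq_or_ne y 0 with hy | hy
    · exact ⟨0, 0, by simp [hy, MulChar.map_zero], by simp [hy, MulChar.map_zero]⟩
    have h : χ y ^ 3 = 1 := by
      rw [← MulChar.pow_apply' χ (by norm_num), hχ3, MulChar.one_apply (isUnit_iff_ne_zero.2 hy)]
    obtain ⟨i, hi, e⟩ := hμ.eq_pow_of_pow_eq_one h
    interval_cases i
    · exact ⟨1, 0, by rw [← e]; simp, by rw [← e]; simp⟩
    · exact ⟨0, 1, by rw [← e]; simp, by rw [← e]; simp⟩
    · refine ⟨-1, -1, by rw [← e, hμ2]; push_cast; ring, ?_⟩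
      rw [← e]
      push_cast
      linear_combination μ * hμ3 + hμ2
  choose A B hAB hAB' using hval
  set a : ℤ := ∑ x, A x with ha
  set b : ℤ := ∑ x, B x with hb
  have hJ : jacobiSum χ χ = (a : Cp) + (b : Cp) * μ := by
    simp only [jacobiSum, hAB, sum_add_distrib, ha, hb, Int.cast_sum, sum_mul]
  have hJ' : jacobiSum (χ ^ 2) (χ ^ 2) = (a : Cp) + (b : Cp) * μ ^ 2 := by
    simp only [jacobiSum, hAB', sum_add_distrib, ha, hb, Int.cast_sum, sum_mul]
  -- modulo `3`
  have hrat : ∀ u v : ℤ, (u : Cp) + (v : Cp) * μ = 0 → u = 0 ∧ v = 0 := fun u v h => by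
    have h' : ((u ^ 2 - u * v + v ^ 2 : ℤ) : Cp) = 0 := by
      push_cast
      linear_combination ((u : Cp) + v * μ ^ 2) * h - (u * v : Cp) * hμ2 - (v : Cp) ^ 2 * hμ3
    have h0 : u ^ 2 - u * v + v ^ 2 = 0 := by exact_mod_cast h'
    constructor <;> nlinarith [sq_nonneg (2 * u - v), sq_nonneg (2 * v - u), sq_nonneg u, sq_nonneg v]
  obtain ⟨z, hz, hJz⟩ := exists_jacobiSum_eq_neg_one_add (by norm_num : 2 < 3) hχ3 hχ3
    (by rw [ZMod.card, show p - 1 = 3 * k by omega]; exact dvd_mul_right _ _) hμ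
  obtain ⟨c, d, hcd⟩ : ∃ c d : ℤ, z = (c : Cp) + (d : Cp) * μ := by
    clear hJz
    induction hz using Algebra.adjoin_induction with
    | mem x hx => exact ⟨0, 1, by rw [Set.mem_singleton_iff.1 hx]; simp⟩
    | algebraMap n => exact ⟨n, 0, by simp⟩
    | add x y _ _ hx hy =>
      obtain ⟨c, d, rfl⟩ := hx
      obtain ⟨c', d', rfl⟩ := hy
      exact ⟨c + c', d + d', by push_cast; ring⟩
    | mul x y _ _ hx hy =>
      obtain ⟨c, d, rfl⟩ := hx
      obtain ⟨c', d', rfl⟩ := hy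
      exact ⟨c * c' - d * d', c * d' + c' * d - d * d', by
        push_cast; linear_combination (d * d' : Cp) * hμ2⟩
  have hmod := hrat (a - (-1 + 3 * d)) (b - 3 * (d - c)) (by
    rw [hJ, hcd] at hJz
    push_cast
    linear_combination hJz + ((c : Cp) + (d : Cp) * μ - 3 * (d : Cp)) * hμ2)
  -- Gross and Koblitz
  set ψ := AddChar.zmodChar p (dworkRoot_pow (p := p))
  have hG : ∀ n c : ℕ, n < p - 1 → n = c * k → gaussSum (ω⁻¹ ^ n) ψ =
      -(dworkPi p ^ n * padicGamma p ((c : ℤ_[p]) * third p)) := fun n c hn hnc => by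
    obtain ⟨x, hx, h⟩ := FA.Summary.gross_koblitz_prime p ω hω hn
    rw [neg_eq_iff_eq_neg.1 h]
    congr 3
    have hku : IsUnit (k : ℤ_[p]) := GaussProduct.isUnit_natCast fun h => by
      have := Nat.le_of_dvd (by omega) h
      omega
    rw [show p - 1 = 3 * k by omega, hnc] at hx
    push_cast at hx
    refine ((isUnit_three hk).mul hku).mul_left_cancel ?_
    linear_combination hx - (c : ℤ_[p]) * (k : ℤ_[p]) * h3
  set Γ1 := padicGamma p (third p) with hΓ1
  set Γ2 := padicGamma p (2 * third p) with hΓ2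
  have hg1 : gaussSum χ ψ = -(dworkPi p ^ k * Γ1) := by
    rw [hχ, hG k 1 (by omega) (one_mul k).symm, Nat.cast_one, one_mul]
  have hg2 : gaussSum (χ ^ 2) ψ = -(dworkPi p ^ (2 * k) * Γ2) := by
    rw [hχ, ← pow_mul, mul_comm k, hG (2 * k) 2 (by omega) rfl, Nat.cast_ofNat]
  have h1 := jacobiSum_mul_nontrivial hne ψ
  have h2 := jacobiSum_mul_nontrivial (χ := χ ^ 2) (φ := χ ^ 2) (h4.trans_ne hne1) ψ
  rw [← pow_two, hg2, hg1] at h1
  rw [h4, hg2, hg1] at h2
  have hC : Γ1 * Γ2 = -1 := gamma_third_mul hk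
  have hπ : dworkPi p ^ (3 * k) = -(p : Cp) := by
    rw [show 3 * k = p - 1 by omega, dworkPi_pow]
  have hv1 : jacobiSum χ χ = -cubicRoot p := by
    refine mul_left_cancel₀ (pow_ne_zero (2 * k) (dworkPi_ne_zero (p := p))) ?_
    rw [cubicRoot, ← hΓ1, neg_neg]
    rw [mul_comm 2 k, pow_mul] at h1 ⊢
    linear_combination Γ1 * h1 + (dworkPi p ^ k) ^ 2 * jacobiSum χ χ * hC
  have hv2 : jacobiSum (χ ^ 2) (χ ^ 2) = -((p : Cp) * Γ2 ^ 3) := by
    refine mul_left_cancel₀ (pow_ne_zero k (dworkPi_ne_zero (p := p))) ?_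
    have e : (dworkPi p ^ (2 * k)) ^ 2 = dworkPi p ^ k * dworkPi p ^ (3 * k) := by
      rw [← pow_mul, ← pow_add]; ring_nf
    rw [hπ] at e
    linear_combination Γ2 * h2 + dworkPi p ^ k * jacobiSum (χ ^ 2) (χ ^ 2) * hC + Γ2 ^ 3 * e
  have hprod : jacobiSum χ χ * jacobiSum (χ ^ 2) (χ ^ 2) = (p : Cp) := by
    rw [hv1, hv2, cubicRoot, ← hΓ1]
    linear_combination (-(p : Cp)) * ((Γ1 * Γ2) ^ 2 - Γ1 * Γ2 + 1) * hC
  have hsum : jacobiSum χ χ + jacobiSum (χ ^ 2) (χ ^ 2) = ((2 * a - b : ℤ) : Cp) := by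
    rw [hJ, hJ']
    push_cast
    linear_combination (b : Cp) * hμ2
  have hnorm : a ^ 2 - a * b + b ^ 2 = (p : ℤ) := by
    have : ((a ^ 2 - a * b + b ^ 2 : ℤ) : Cp) = ((p : ℤ) : Cp) := by
      rw [Int.cast_natCast, ← hprod, hJ, hJ']
      push_cast
      linear_combination -(a * b : Cp) * hμ2 - (b : Cp) ^ 2 * hμ3
    exact_mod_cast this
  refine ⟨2 * a - b, d - c, ?_, by omega, ?_⟩
  · have hb' : b = 3 * (d - c) := by linarith [hmod.2]
    rw [hb'] at hnorm ⊢
    linear_combination -4 * hnorm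
  · rw [← hsum]
    rw [hv1] at hprod hsum ⊢
    linear_combination -hprod

omit hk in
/-- The representation `4 p = r ^ 2 + 27 s ^ 2` is unique. -/
theorem cubic_trace_unique {r s T S : ℤ} (h : 4 * (p : ℤ) = r ^ 2 + 27 * s ^ 2)
    (hT : 4 * (p : ℤ) = T ^ 2 + 27 * S ^ 2) (hr : r % 3 = 1) (hT3 : T % 3 = 1) : T = r := by
  have hpp : Prime (p : ℤ) := Nat.prime_iff_prime_int.1 hp.out
  have hp0 : (0 : ℤ) < p := by exact_mod_cast hp.out.pos
  have hkey : (p : ℤ) ∣ (T * s - r * S) * (T * s + r * S) :=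
    ⟨4 * (s ^ 2 - S ^ 2), by linear_combination (-(s ^ 2)) * hT + S ^ 2 * h⟩
  have hzero : T * s - r * S = 0 ∨ T * s + r * S = 0 := by
    have hlt : ∀ x : ℤ, 27 * x ^ 2 ≤ 16 * (p : ℤ) ^ 2 → (p : ℤ) ∣ x → x = 0 := fun x hx hd => by
      refine Int.eq_zero_of_abs_lt_dvd hd ?_
      nlinarith [sq_abs x, abs_nonneg x]
    rcases hpp.dvd_or_dvd hkey with h' | h'
    · refine Or.inl (hlt _ ?_ h')
      have e : (T * r + 27 * S * s) ^ 2 + 27 * (T * s - r * S) ^ 2 = 16 * (p : ℤ) ^ 2 := by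
        linear_combination (-(r ^ 2 + 27 * s ^ 2)) * hT - 4 * (p : ℤ) * h
      nlinarith [sq_nonneg (T * r + 27 * S * s)]
    · refine Or.inr (hlt _ ?_ h')
      have e : (T * r - 27 * S * s) ^ 2 + 27 * (T * s + r * S) ^ 2 = 16 * (p : ℤ) ^ 2 := by
        linear_combination (-(r ^ 2 + 27 * s ^ 2)) * hT - 4 * (p : ℤ) * h
      nlinarith [sq_nonneg (T * r - 27 * S * s)]
  have hsS : s ^ 2 = S ^ 2 := by
    have h0 : (T * s - r * S) * (T * s + r * S) = 0 := by
      rcases hzero with e | e <;> simp [e]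
    have : 4 * (p : ℤ) * (s ^ 2 - S ^ 2) = 0 := by
      linear_combination h0 + s ^ 2 * hT - S ^ 2 * h
    rcases mul_eq_zero.1 this with e | e <;> omega
  have hTr : T ^ 2 = r ^ 2 := by linear_combination h - hT + 27 * hsS
  rcases sq_eq_sq_iff_eq_or_eq_neg.1 hTr with e | e <;> omega

/-- **The cubic congruence.** -/
theorem sq_dvd_cubic {r s : ℤ} (h : 4 * (p : ℤ) = r ^ 2 + 27 * s ^ 2) (hr : r % 3 = 1) :
    (p : ℤ) ^ 2 ∣ r * ((2 * k).choose k : ℕ) - ((p : ℤ) - r ^ 2) ∧
      cubicRoot p ^ 2 + (r : Cp) * cubicRoot p + (p : Cp) = 0 := by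
  obtain ⟨T, S, hT, hT3, hq⟩ := exists_cubic_trace hk
  obtain rfl := cubic_trace_unique h hT hr hT3
  refine ⟨?_, hq⟩
  rw [← norm_intCast_le_iff]
  push_cast
  set u := cubicRoot p
  set N : Cp := ((2 * k).choose k : Cp)
  have hu0 : u ≠ 0 := norm_ne_zero_iff.1 (by rw [norm_cubicRoot hk]; exact one_ne_zero)
  have hu : u + (T : Cp) = -(p : Cp) / u := by
    field_simp
    linear_combination hq
  rw [show (T : Cp) * N - ((p : Cp) - (T : Cp) ^ 2) = (T : Cp) * (N - u) + (u + (T : Cp)) ^ 2 by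
    linear_combination -hq]
  refine (IsUltrametricDist.norm_add_le_max _ _).trans (max_le ?_ ?_)
  · rw [norm_mul]
    refine (mul_le_of_le_one_left (norm_nonneg _) ?_).trans (norm_choose_sub_cubicRoot hk)
    rw [← map_intCast (toCp p), norm_toCp]
    exact PadicInt.norm_le_one _
  · rw [hu, norm_pow, norm_div, norm_neg, norm_cubicRoot hk, div_one, ← map_natCast (toCp p),
      norm_toCp]

end Fermat.Agent.Supercongruence

end
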