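import Fermat.Agent.Supercongruence.Sun
import Mathlib.NumberTheory.LegendreSymbol.QuadraticReciprocity

/-!
# The four supercongruences of Rodriguez-Villegas

They are Sun's at `a = -1 / m`, `m = 2, 3, 4, 6`; there `n` is `(j p - 1) / m`.
-/

set_option autoImplicit false

noncomputable section

open Finset

namespace Fermat.Agent.Supercongruence

variable {p : ℕ} [hp : Fact p.Prime]

theorem intCast_sq_dvd {z : ℤ} (h : (p : ℤ_[p]) ^ 2 ∣ (z : ℤ_[p])) : (p : ℤ) ^ 2 ∣ z := by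
  rwa [← PadicInt.norm_int_le_pow_iff_dvd, PadicInt.norm_le_pow_iff_mem_span_pow,
    Ideal.mem_span_singleton]

/-- The scaled sum. -/
theorem sq_dvd_scaled (hp2 : p ≠ 2) {m n j : ℕ} (hm : ¬ p ∣ m) (hn : n < p) (hnj : m * n + 1 = j * p)
    (B c : ℕ) (hB : m ^ 2 * c = B) (F : ℕ → ℕ) (hF0 : F 0 = 1)
    (hF : ∀ k, (k + 1) ^ 2 * F (k + 1) = c * ((m * k + 1) * (m * k + (m - 1))) * F k) :
    (p : ℤ) ^ 2 ∣ ∑ k ∈ range p, (F k : ℤ) * (B : ℤ) ^ (p - 1 - k) -
      (-1) ^ n * (B : ℤ) ^ (p - 1) := by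
  have hm1 : 1 ≤ m := by
    by_contra h
    exact hm (by rw [show m = 0 by omega]; exact dvd_zero p)
  have hu : IsUnit (m : ℤ_[p]) := by
    rw [PadicInt.isUnit_iff, PadicInt.norm_natCast_eq_one_iff, Nat.Prime.coprime_iff_not_dvd hp.out]
    exact hm
  set a : ℤ_[p] := -Ring.inverse (m : ℤ_[p]) with ha
  have hma : (m : ℤ_[p]) * a = -1 := by rw [ha, mul_neg, Ring.mul_inverse_cancel _ hu]
  have han : (p : ℤ_[p]) ∣ a - n := by
    refine (IsUnit.dvd_mul_left hu).1 ?_
    rw [mul_sub, hma, show (-1 : ℤ_[p]) - m * n = -((m * n + 1 : ℕ) : ℤ_[p]) by push_cast; ring, hnj]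
    push_cast
    exact (dvd_neg).2 (dvd_mul_left _ _)
  have key : ∀ k, (B : ℤ_[p]) ^ k * sunTerm a k = (F k : ℤ_[p]) := by
    intro k
    induction k with
    | zero => simp [sunTerm, hF0]
    | succ k ih =>
      refine mul_left_cancel₀ (a := ((k : ℤ_[p]) + 1) ^ 2)
        (pow_ne_zero _ (by exact_mod_cast k.succ_ne_zero)) ?_
      have h1 := congrArg (Nat.cast (R := ℤ_[p])) (hF k)
      have hBc := congrArg (Nat.cast (R := ℤ_[p])) hB
      push_cast [Nat.cast_sub hm1] at h1 hBc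
      rw [h1, pow_succ (B : ℤ_[p]) k, sunTerm, show ((k : ℤ_[p]) + 1) ^ 2 * ((B : ℤ_[p]) ^ k * (B : ℤ_[p]) *
          (Ring.choose a (k + 1) * Ring.choose (-1 - a) (k + 1))) = (B : ℤ_[p]) ^ k * (B : ℤ_[p]) *
          ((((k : ℤ_[p]) + 1) * Ring.choose a (k + 1)) *
            (((k : ℤ_[p]) + 1) * Ring.choose (-1 - a) (k + 1))) by ring,
        choose_absorb, choose_absorb, ← ih, ← hBc, sunTerm]
      linear_combination ((m : ℤ_[p]) ^ 2 * c) ^ k * Ring.choose a k * Ring.choose (-1 - a) k * c *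
        (-(m : ℤ_[p]) - (m : ℤ_[p]) * a + 1) * hma
  refine intCast_sq_dvd ?_
  push_cast
  have e : ∀ k ∈ range p, (F k : ℤ_[p]) * (B : ℤ_[p]) ^ (p - 1 - k) =
      (B : ℤ_[p]) ^ (p - 1) * sunTerm a k := fun k hk => by
    have := mem_range.1 hk
    rw [← key k, mul_right_comm, ← pow_add, show k + (p - 1 - k) = p - 1 by omega]
  rw [sum_congr rfl e, ← mul_sum, mul_comm ((-1 : ℤ_[p]) ^ n), ← mul_sub]
  exact dvd_mul_of_dvd_right (sq_dvd_sum_sub hp2 hn han) _

theorem not_dvd_six (hp5 : 5 ≤ p) {m : ℕ} (hm : m ∣ 12) : ¬ p ∣ m := fun h => by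
  have h12 : p ∣ 2 ^ 2 * 3 := h.trans hm
  rcases (Nat.Prime.dvd_mul hp.out).1 h12 with h | h
  · have := (Nat.prime_dvd_prime_iff_eq hp.out Nat.prime_two).1 (hp.out.dvd_of_dvd_pow h)
    omega
  · have := (Nat.prime_dvd_prime_iff_eq hp.out Nat.prime_three).1 h
    omega

theorem centralBinom_sq_ratio (k : ℕ) : (k + 1) ^ 2 * ((k + 1).centralBinom) ^ 2 =
    4 * ((2 * k + 1) * (2 * k + (2 - 1))) * (k.centralBinom) ^ 2 := by
  have h := Nat.succ_mul_centralBinom_succ k
  rw [← mul_pow, h]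
  ring

/-- `(3 k)! / k! ^ 3`. -/
def tripleBinom (k : ℕ) : ℕ := (3 * k).choose k * (2 * k).choose k

/-- `(4 k)! / ((2 k)! k! ^ 2)`. -/
def quadBinom (k : ℕ) : ℕ := (4 * k).choose (2 * k) * (2 * k).choose k

/-- `(6 k)! / ((3 k)! (2 k)! k!)`. -/
def sexBinom (k : ℕ) : ℕ := (6 * k).choose (3 * k) * (3 * k).choose k

theorem tripleBinom_spec (k : ℕ) :
    tripleBinom k * (k.factorial * k.factorial * k.factorial) = (3 * k).factorial := by
  have h1 := Nat.choose_mul_factorial_mul_factorial (show k ≤ 3 * k by omega)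
  have h2 := Nat.choose_mul_factorial_mul_factorial (show k ≤ 2 * k by omega)
  rw [show 3 * k - k = 2 * k by omega] at h1
  rw [show 2 * k - k = k by omega] at h2
  rw [tripleBinom, ← h1, ← h2]
  ring

theorem quadBinom_spec (k : ℕ) :
    quadBinom k * ((2 * k).factorial * k.factorial * k.factorial) = (4 * k).factorial := by
  have h1 := Nat.choose_mul_factorial_mul_factorial (show 2 * k ≤ 4 * k by omega)
  have h2 := Nat.choose_mul_factorial_mul_factorial (show k ≤ 2 * k by omega)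
  rw [show 4 * k - 2 * k = 2 * k by omega] at h1
  rw [show 2 * k - k = k by omega] at h2
  rw [quadBinom, ← h1, ← h2]
  ring

theorem sexBinom_spec (k : ℕ) :
    sexBinom k * ((3 * k).factorial * (2 * k).factorial * k.factorial) = (6 * k).factorial := by
  have h1 := Nat.choose_mul_factorial_mul_factorial (show 3 * k ≤ 6 * k by omega)
  have h2 := Nat.choose_mul_factorial_mul_factorial (show k ≤ 3 * k by omega)
  rw [show 6 * k - 3 * k = 3 * k by omega] at h1
  rw [show 3 * k - k = 2 * k by omega] at h2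
  rw [sexBinom, ← h1, ← h2]
  ring

theorem tripleBinom_ratio (k : ℕ) : (k + 1) ^ 2 * tripleBinom (k + 1) =
    3 * ((3 * k + 1) * (3 * k + (3 - 1))) * tripleBinom k := by
  refine Nat.eq_of_mul_eq_mul_left (show 0 < (k + 1) * (k.factorial * k.factorial * k.factorial) by
    positivity) ?_
  have h := tripleBinom_spec (k + 1)
  rw [show 3 * (k + 1) = 3 * k + 1 + 1 + 1 by ring] at h
  simp only [Nat.factorial_succ, ← tripleBinom_spec k] at h
  linear_combination h

theorem quadBinom_ratio (k : ℕ) : (k + 1) ^ 2 * quadBinom (k + 1) =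
    4 * ((4 * k + 1) * (4 * k + (4 - 1))) * quadBinom k := by
  refine Nat.eq_of_mul_eq_mul_left (show 0 < (2 * k + 1) * (2 * k + 2) *
    ((2 * k).factorial * k.factorial * k.factorial) by positivity) ?_
  have h := quadBinom_spec (k + 1)
  rw [show 4 * (k + 1) = 4 * k + 1 + 1 + 1 + 1 by ring, show 2 * (k + 1) = 2 * k + 1 + 1 by ring] at h
  simp only [Nat.factorial_succ, ← quadBinom_spec k] at h
  linear_combination h

theorem sexBinom_ratio (k : ℕ) : (k + 1) ^ 2 * sexBinom (k + 1) =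
    12 * ((6 * k + 1) * (6 * k + (6 - 1))) * sexBinom k := by
  refine Nat.eq_of_mul_eq_mul_left (show 0 < (3 * k + 1) * (3 * k + 2) * (3 * k + 3) * (2 * k + 1) *
    (2 * k + 2) * ((3 * k).factorial * (2 * k).factorial * k.factorial) by positivity) ?_
  have h := sexBinom_spec (k + 1)
  rw [show 6 * (k + 1) = 6 * k + 1 + 1 + 1 + 1 + 1 + 1 by ring,
    show 3 * (k + 1) = 3 * k + 1 + 1 + 1 by ring, show 2 * (k + 1) = 2 * k + 1 + 1 by ring] at h
  simp only [Nat.factorial_succ, ← sexBinom_spec k] at h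
  linear_combination (k + 1) * h

theorem legendreSym_neg_three (hp5 : 5 ≤ p) :
    legendreSym p (-3) = if p % 3 = 1 then 1 else -1 := by
  have : Fact (Nat.Prime 3) := ⟨Nat.prime_three⟩
  have hodd : p % 2 = 1 := Nat.odd_iff.1 (hp.out.odd_of_ne_two (by omega))
  rw [show (-3 : ℤ) = -1 * ((3 : ℕ) : ℤ) by norm_num, legendreSym.mul,
    legendreSym.at_neg_one (by omega), ZMod.χ₄_eq_neg_one_pow hodd,
    legendreSym.quadratic_reciprocity' (p := 3) (q := p) (by norm_num) (by omega), ← mul_assoc,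
    ← pow_add, show p / 2 + 3 / 2 * (p / 2) = 2 * (p / 2) by omega, pow_mul, neg_one_sq, one_pow,
    one_mul, legendreSym.mod 3 (p : ℤ)]
  have hmod : p % 3 ≠ 0 := fun h => by
    have := (Nat.prime_dvd_prime_iff_eq Nat.prime_three hp.out).1 (Nat.dvd_of_mod_eq_zero h)
    omega
  rcases (show p % 3 = 1 ∨ p % 3 = 2 by omega) with h | h
  · rw [if_pos h, show ((p : ℤ) % ((3 : ℕ) : ℤ)) = 1 by omega, legendreSym.at_one]
  · rw [if_neg (by omega), show ((p : ℤ) % ((3 : ℕ) : ℤ)) = 2 by omega,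
      legendreSym.at_two (by norm_num), ZMod.χ₈_nat_eq_if_mod_eight]
    norm_num

/-- **The four supercongruences.** -/
theorem sq_dvd_villegas (hp5 : 5 ≤ p) :
    (p : ℤ) ^ 2 ∣ ∑ k ∈ range p, ((k.centralBinom ^ 2 : ℕ) : ℤ) * 16 ^ (p - 1 - k) -
        legendreSym p (-1) * 16 ^ (p - 1) ∧
      (p : ℤ) ^ 2 ∣ ∑ k ∈ range p, (tripleBinom k : ℤ) * 27 ^ (p - 1 - k) -
        legendreSym p (-3) * 27 ^ (p - 1) ∧
      (p : ℤ) ^ 2 ∣ ∑ k ∈ range p, (quadBinom k : ℤ) * 64 ^ (p - 1 - k) -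
        legendreSym p (-2) * 64 ^ (p - 1) ∧
      (p : ℤ) ^ 2 ∣ ∑ k ∈ range p, (sexBinom k : ℤ) * 432 ^ (p - 1 - k) -
        legendreSym p (-1) * 432 ^ (p - 1) := by
  have hp2 : p ≠ 2 := by omega
  have hodd : p % 2 = 1 := Nat.odd_iff.1 (hp.out.odd_of_ne_two hp2)
  have hmod : p % 3 ≠ 0 := fun h => by
    have := (Nat.prime_dvd_prime_iff_eq Nat.prime_three hp.out).1 (Nat.dvd_of_mod_eq_zero h)
    omega
  have hsign : ∀ {n : ℕ} {P : Prop} [Decidable P], (n % 2 = 0 ↔ P) →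
      ((-1 : ℤ) ^ n = if P then 1 else -1) := fun {n} P _ h => by
    by_cases hP : P
    · rw [if_pos hP, Even.neg_one_pow (Nat.even_iff.2 (h.2 hP))]
    · rw [if_neg hP, Odd.neg_one_pow (Nat.odd_iff.2 (by have := mt h.1 hP; omega))]
  refine ⟨?_, ?_, ?_, ?_⟩
  · have h := sq_dvd_scaled hp2 (m := 2) (n := p / 2) (j := 1) (not_dvd_six hp5 (by norm_num))
      (by omega) (by omega) 16 4 rfl (fun k => k.centralBinom ^ 2) (by simp)
      centralBinom_sq_ratio
    rw [legendreSym.at_neg_one hp2, ZMod.χ₄_eq_neg_one_pow hodd]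
    exact_mod_cast h
  · rw [legendreSym_neg_three hp5]
    rcases (show p % 3 = 1 ∨ p % 3 = 2 by omega) with h3 | h3
    · rw [← hsign (n := p / 3) (P := p % 3 = 1) (by omega)]
      exact_mod_cast sq_dvd_scaled hp2 (m := 3) (n := p / 3) (j := 1)
        (not_dvd_six hp5 (by norm_num)) (by omega) (by omega) 27 3 rfl tripleBinom rfl
        tripleBinom_ratio
    · rw [← hsign (n := (2 * p - 1) / 3) (P := p % 3 = 1) (by omega)]
      exact_mod_cast sq_dvd_scaled hp2 (m := 3) (n := (2 * p - 1) / 3) (j := 2)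
        (not_dvd_six hp5 (by norm_num)) (by omega) (by omega) 27 3 rfl tripleBinom rfl
        tripleBinom_ratio
  · rw [legendreSym.at_neg_two hp2, ZMod.χ₈'_nat_eq_if_mod_eight, if_neg (by omega)]
    rcases (show p % 4 = 1 ∨ p % 4 = 3 by omega) with h4 | h4
    · rw [← hsign (n := p / 4) (P := p % 8 = 1 ∨ p % 8 = 3) (by omega)]
      exact_mod_cast sq_dvd_scaled hp2 (m := 4) (n := p / 4) (j := 1)
        (not_dvd_six hp5 (by norm_num)) (by omega) (by omega) 64 4 rfl quadBinom rfl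
        quadBinom_ratio
    · rw [← hsign (n := (3 * p - 1) / 4) (P := p % 8 = 1 ∨ p % 8 = 3) (by omega)]
      exact_mod_cast sq_dvd_scaled hp2 (m := 4) (n := (3 * p - 1) / 4) (j := 3)
        (not_dvd_six hp5 (by norm_num)) (by omega) (by omega) 64 4 rfl quadBinom rfl
        quadBinom_ratio
  · rw [legendreSym.at_neg_one hp2, ZMod.χ₄_nat_eq_if_mod_four, if_neg (by omega)]
    rcases (show p % 6 = 1 ∨ p % 6 = 5 by omega) with h6 | h6
    · rw [← hsign (n := p / 6) (P := p % 4 = 1) (by omega)]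
      exact_mod_cast sq_dvd_scaled hp2 (m := 6) (n := p / 6) (j := 1)
        (not_dvd_six hp5 (by norm_num)) (by omega) (by omega) 432 12 rfl sexBinom rfl
        sexBinom_ratio
    · rw [← hsign (n := (5 * p - 1) / 6) (P := p % 4 = 1) (by omega)]
      exact_mod_cast sq_dvd_scaled hp2 (m := 6) (n := (5 * p - 1) / 6) (j := 5)
        (not_dvd_six hp5 (by norm_num)) (by omega) (by omega) 432 12 rfl sexBinom rfl
        sexBinom_ratio

end Fermat.Agent.Supercongruence

end
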