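import Mathlib.NumberTheory.Padics.MahlerBasis
import Mathlib.RingTheory.Binomial

/-!
# Sun's supercongruence

`∑ choose a k · choose (-1 - a) k` over `k < p` changes sign modulo `p ^ 2` from `a - 1` to `a`
when `p ∤ a`, by a telescoping identity, and is `1` at the multiples of `p`.
-/

set_option autoImplicit false

noncomputable section

open Finset

namespace Fermat.Agent.Supercongruence

variable {p : ℕ} [hp : Fact p.Prime]

/-- `k`th term. -/
def sunTerm (a : ℤ_[p]) (k : ℕ) : ℤ_[p] := Ring.choose a k * Ring.choose (-1 - a) k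

theorem choose_absorb (x : ℤ_[p]) (k : ℕ) :
    ((k : ℤ_[p]) + 1) * Ring.choose x (k + 1) = (x - k) * Ring.choose x k := by
  have h1 := Ring.descPochhammer_eq_factorial_smul_choose x (k + 1)
  have h0 := Ring.descPochhammer_eq_factorial_smul_choose x k
  rw [descPochhammer_succ_right, Polynomial.smeval_mul, h0, Polynomial.smeval_sub,
    Polynomial.smeval_X, Polynomial.smeval_natCast, pow_one, pow_zero, nsmul_eq_mul, nsmul_eq_mul,
    nsmul_eq_mul, mul_one, Nat.factorial_succ] at h1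
  push_cast at h1
  refine mul_left_cancel₀ (a := ((k.factorial : ℕ) : ℤ_[p]))
    (Nat.cast_ne_zero.2 k.factorial_ne_zero) ?_
  linear_combination -h1

theorem sum_pair (a : ℤ_[p]) (m : ℕ) :
    ∑ k ∈ range (m + 1), (sunTerm a k + sunTerm (a - 1) k) =
      2 * (Ring.choose (a - 1) m * Ring.choose (-a - 1) m) := by
  induction m with
  | zero => simp [sunTerm]; norm_num
  | succ m ih =>
    have p1 := Ring.choose_succ_succ (a - 1) m
    have p2 := Ring.choose_succ_succ (-a - 1) m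
    have a1 := choose_absorb (a - 1) m
    have a2 := choose_absorb (-a - 1) m
    rw [sub_add_cancel] at p1 p2
    rw [sum_range_succ, ih, sunTerm, sunTerm, show -1 - (a - 1) = -a by ring,
      show -1 - a = -a - 1 by ring, p1, p2]
    refine mul_left_cancel₀ (a := (m : ℤ_[p]) + 1)
      (by exact_mod_cast m.succ_ne_zero) ?_
    linear_combination (Ring.choose (-a - 1) m) * a1 + (Ring.choose (a - 1) m) * a2

theorem isUnit_natCast_of_lt {k : ℕ} (h0 : 0 < k) (hk : k < p) : IsUnit (k : ℤ_[p]) := by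
  rw [PadicInt.isUnit_iff, PadicInt.norm_natCast_eq_one_iff, Nat.Prime.coprime_iff_not_dvd hp.out]
  exact Nat.not_dvd_of_pos_of_lt h0 hk

theorem prime_dvd_choose (x : ℤ_[p]) {i : ℕ} (hx : (p : ℤ_[p]) ∣ x - i) :
    ∀ m, i < m → m < p → (p : ℤ_[p]) ∣ Ring.choose x m := by
  intro m him
  induction m, him using Nat.le_induction with
  | base =>
    intro hlt
    have h := choose_absorb x i
    rw [← Nat.cast_succ] at h
    exact (IsUnit.dvd_mul_left (isUnit_natCast_of_lt i.succ_pos hlt)).1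
      (h ▸ dvd_mul_of_dvd_left hx _)
  | succ m _ ih =>
    intro hlt
    have h := choose_absorb x m
    rw [← Nat.cast_succ] at h
    exact (IsUnit.dvd_mul_left (isUnit_natCast_of_lt m.succ_pos hlt)).1
      (h ▸ dvd_mul_of_dvd_right (ih (by omega)) _)

theorem prime_dvd_choose_neg_sub {a : ℤ_[p]} (ha : (p : ℤ_[p]) ∣ a) :
    ∀ k, k < p → (p : ℤ_[p]) ∣ Ring.choose (-1 - a) k - (-1) ^ k := by
  intro k
  induction k with
  | zero => simp
  | succ k ih =>
    intro hk
    refine (IsUnit.dvd_mul_left (isUnit_natCast_of_lt k.succ_pos hk)).1 ?_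
    rw [Nat.cast_succ, mul_sub, choose_absorb, show (-1 - a - (k : ℤ_[p])) * Ring.choose (-1 - a) k -
      ((k : ℤ_[p]) + 1) * (-1) ^ (k + 1) =
      -((k : ℤ_[p]) + 1) * (Ring.choose (-1 - a) k - (-1) ^ k) - a * Ring.choose (-1 - a) k by ring]
    exact dvd_sub (dvd_mul_of_dvd_right (ih (by omega)) _) (dvd_mul_of_dvd_left ha _)

theorem sq_dvd_mul_choose {a : ℤ_[p]} (ha : (p : ℤ_[p]) ∣ a) :
    ∀ k, k + 1 < p →
      (p : ℤ_[p]) ^ 2 ∣ ((k : ℤ_[p]) + 1) * Ring.choose a (k + 1) - a * (-1) ^ k := by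
  intro k
  induction k with
  | zero => simp
  | succ k ih =>
    intro hk
    have hd : (p : ℤ_[p]) ∣ Ring.choose a (k + 1) :=
      prime_dvd_choose a (i := 0) (by simpa using ha) _ k.succ_pos (by omega)
    rw [choose_absorb, Nat.cast_succ, show (a - ((k : ℤ_[p]) + 1)) * Ring.choose a (k + 1) -
      a * (-1) ^ (k + 1) = a * Ring.choose a (k + 1) -
        (((k : ℤ_[p]) + 1) * Ring.choose a (k + 1) - a * (-1) ^ k) by ring]
    exact dvd_sub (by rw [pow_two]; exact mul_dvd_mul ha hd) (ih (by omega))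

theorem sq_dvd_sum_sub_one (hp2 : p ≠ 2) {a : ℤ_[p]} (ha : (p : ℤ_[p]) ∣ a) :
    (p : ℤ_[p]) ^ 2 ∣ ∑ k ∈ range p, sunTerm a k - 1 := by
  obtain ⟨t, ht⟩ := ha
  have key : ∀ k ∈ Ico 1 p, ∃ c : ℤ_[p],
      sunTerm a k = (p : ℤ_[p]) * c ∧ PadicInt.toZMod c = -PadicInt.toZMod t * (k : ZMod p)⁻¹ := by
    intro k hk
    rw [Finset.mem_Ico] at hk
    obtain ⟨j, rfl⟩ : ∃ j, k = j + 1 := ⟨k - 1, by omega⟩
    obtain ⟨d, hd⟩ := prime_dvd_choose a (i := 0) (by simp [ht]) (j + 1) j.succ_pos hk.2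
    obtain ⟨e, he⟩ := prime_dvd_choose_neg_sub (a := a) ⟨t, ht⟩ (j + 1) hk.2
    obtain ⟨w, hw⟩ := sq_dvd_mul_choose (a := a) ⟨t, ht⟩ j hk.2
    refine ⟨d * Ring.choose (-1 - a) (j + 1), by rw [sunTerm, hd, mul_assoc], ?_⟩
    have hne : ((j + 1 : ℕ) : ZMod p) ≠ 0 := by
      rw [Ne, ZMod.natCast_eq_zero_iff]
      exact Nat.not_dvd_of_pos_of_lt j.succ_pos hk.2
    rw [hd, ht] at hw
    have hw' : ((j : ℤ_[p]) + 1) * d - t * (-1) ^ j = (p : ℤ_[p]) * w :=
      mul_left_cancel₀ (Nat.cast_ne_zero.2 hp.out.ne_zero) (by linear_combination hw)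
    have h1 := congrArg (PadicInt.toZMod (p := p)) hw'
    have h2 := congrArg (PadicInt.toZMod (p := p)) he
    simp only [map_sub, map_mul, map_add, map_pow, map_neg, map_one, map_natCast,
      ZMod.natCast_self, zero_mul] at h1 h2
    rw [map_mul, eq_mul_inv_iff_mul_eq₀ hne]
    have hsq : ((-1 : ZMod p) ^ j) * (-1) ^ j = 1 := by rw [← mul_pow]; norm_num
    push_cast
    linear_combination (PadicInt.toZMod d * ((j : ZMod p) + 1)) * h2 + ((-1 : ZMod p) ^ (j + 1)) * h1 +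
      (-PadicInt.toZMod t) * hsq
  choose! c hc hc' using key
  have hsum : ∑ k ∈ range p, sunTerm a k - 1 = (p : ℤ_[p]) * ∑ k ∈ Ico 1 p, c k := by
    rw [range_eq_Ico, sum_eq_sum_Ico_succ_bot hp.out.pos, mul_sum]
    simp only [sunTerm, Ring.choose_zero_right, mul_one, add_sub_cancel_left]
    exact sum_congr rfl hc
  rw [hsum, pow_two]
  refine mul_dvd_mul_left _ ?_
  rw [← Ideal.mem_span_singleton, ← PadicInt.maximalIdeal_eq_span_p, ← PadicInt.ker_toZMod,
    RingHom.mem_ker, map_sum, sum_congr rfl hc', ← mul_sum]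
  have h0 : ∑ k ∈ Ico 1 p, ((k : ℕ) : ZMod p)⁻¹ = 0 := by
    have e : ∑ k ∈ range p, ((k : ℕ) : ZMod p)⁻¹ = ∑ x : ZMod p, x⁻¹ := by
      refine sum_nbij' (fun k => (k : ZMod p)) ZMod.val (fun k _ => mem_univ _)
        (fun x _ => mem_range.2 (ZMod.val_lt x)) (fun k hk => ?_) (fun x _ => ?_) fun k _ => rfl
      · exact ZMod.val_natCast_of_lt (mem_range.1 hk)
      · exact ZMod.natCast_zmod_val x
    have e' : ∑ x : ZMod p, x⁻¹ = 0 := by
      have h := Equiv.sum_comp (Equiv.neg (ZMod p)) (fun x : ZMod p => x⁻¹)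
      simp only [Equiv.neg_apply, inv_neg, sum_neg_distrib] at h
      have h2 : (2 : ZMod p) * ∑ x : ZMod p, x⁻¹ = 0 := by linear_combination -h
      refine (mul_eq_zero.1 h2).resolve_left fun h3 => ?_
      exact hp2 ((Nat.prime_dvd_prime_iff_eq hp.out Nat.prime_two).1
        ((ZMod.natCast_eq_zero_iff 2 p).1 (by exact_mod_cast h3)))
    rw [e', range_eq_Ico, sum_eq_sum_Ico_succ_bot hp.out.pos, Nat.cast_zero, inv_zero,
      zero_add] at e
    exact e
  rw [h0, mul_zero]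

/-- **Sun's supercongruence.** -/
theorem sq_dvd_sum_sub (hp2 : p ≠ 2) : ∀ {n : ℕ}, n < p → ∀ {a : ℤ_[p]},
    (p : ℤ_[p]) ∣ a - n → (p : ℤ_[p]) ^ 2 ∣ ∑ k ∈ range p, sunTerm a k - (-1) ^ n := by
  intro n
  induction n with
  | zero =>
    intro _ a ha
    rw [pow_zero]
    exact sq_dvd_sum_sub_one hp2 (by simpa using ha)
  | succ n ih =>
    intro hn a ha
    have h := sum_pair a (p - 1)
    rw [Nat.sub_add_cancel hp.out.one_le, sum_add_distrib] at h
    have h1 : (p : ℤ_[p]) ∣ Ring.choose (a - 1) (p - 1) :=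
      prime_dvd_choose _ (i := n) (by rw [sub_sub, add_comm (1 : ℤ_[p]), ← Nat.cast_succ]; exact ha)
        _ (by omega) (by omega)
    have h2 : (p : ℤ_[p]) ∣ Ring.choose (-a - 1) (p - 1) :=
      prime_dvd_choose _ (i := p - (n + 2)) (by
        rw [Nat.cast_sub (by omega), show -a - 1 - ((p : ℤ_[p]) - ((n + 2 : ℕ) : ℤ_[p])) =
          -(a - ((n + 1 : ℕ) : ℤ_[p])) - p by push_cast; ring]
        exact dvd_sub ((dvd_neg).2 ha) dvd_rfl) _ (by omega) (by omega)
    have h3 : (p : ℤ_[p]) ^ 2 ∣ ∑ k ∈ range p, sunTerm (a - 1) k - (-1) ^ n :=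
      ih (by omega) (by rw [sub_sub, add_comm (1 : ℤ_[p]), ← Nat.cast_succ]; exact ha)
    rw [show ∑ k ∈ range p, sunTerm a k - (-1) ^ (n + 1) =
      2 * (Ring.choose (a - 1) (p - 1) * Ring.choose (-a - 1) (p - 1)) -
        (∑ k ∈ range p, sunTerm (a - 1) k - (-1) ^ n) by rw [← h]; ring]
    exact dvd_sub (dvd_mul_of_dvd_right (by rw [pow_two]; exact mul_dvd_mul h1 h2) _) h3

end Fermat.Agent.Supercongruence

end
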